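/-
S23, algebra core of the bounded-denominator step (part of P9):
a complex power series `u` with rational coefficients which satisfies
* `u * D = H` with `D ≠ 0`, and
* a monic polynomial relation,
where `D`, `H` and the coefficients of the relation are finite `ℂ`-linear combinations of
power series with bounded denominators, has itself bounded denominators.

The proof applies `ℚ`-linear retractions `ℂ → ℚ` coefficientwise and then uses that `ℤ⟦X⟧` is
integrally closed (`Fermat.Agent.S23.int_powerSeries_of_integral`).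
-/
import Mathlib.RingTheory.PowerSeries.Basic
import Mathlib.LinearAlgebra.Basis.VectorSpace
import Mathlib.Algebra.Polynomial.Monic
import Mathlib.Algebra.Polynomial.Eval.Defs
import Fermat.Agent.S23.P6_IntClosed

set_option autoImplicit false

namespace Fermat.Agent.S23.H55

open PowerSeries

/-- The coefficientwise cast `ℤ⟦X⟧ → ℂ⟦X⟧`. -/
noncomputable abbrev castPS : PowerSeries ℤ →+* PowerSeries ℂ :=
  PowerSeries.map (Int.castRingHom ℂ)

theorem castPS_C_natCast (M : ℕ) : castPS (C (M : ℤ)) = C (M : ℂ) := by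
  simp [castPS]

theorem C_natCast_ne_zero {M : ℕ} (hM : 0 < M) : (C (M : ℂ) : PowerSeries ℂ) ≠ 0 := by
  intro h
  have h0 := congrArg (coeff 0) h
  simp only [coeff_zero_C, map_zero, Nat.cast_eq_zero] at h0
  omega

/-- Bounded denominators, in ring-multiplication form. -/
theorem bddDenom_iff (u : PowerSeries ℂ) :
    BddDenom u ↔ ∃ M : ℕ, 0 < M ∧ ∃ a : PowerSeries ℤ, C (M : ℂ) * u = castPS a := by
  unfold BddDenom
  simp only [smul_eq_C_mul]

theorem bddDenom_castPS (a : PowerSeries ℤ) : BddDenom (castPS a) :=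
  (bddDenom_iff _).2 ⟨1, one_pos, a, by simp⟩

theorem bddDenom_zero : BddDenom (0 : PowerSeries ℂ) := by
  simpa using bddDenom_castPS 0

theorem bddDenom_one : BddDenom (1 : PowerSeries ℂ) := by
  simpa using bddDenom_castPS 1

theorem bddDenom_add {u v : PowerSeries ℂ} (hu : BddDenom u) (hv : BddDenom v) :
    BddDenom (u + v) := by
  obtain ⟨M, hM, a, ha⟩ := (bddDenom_iff u).1 hu
  obtain ⟨N, hN, b, hb⟩ := (bddDenom_iff v).1 hv
  refine (bddDenom_iff _).2 ⟨M * N, Nat.mul_pos hM hN, C (N : ℤ) * a + C (M : ℤ) * b, ?_⟩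
  rw [map_add, map_mul, map_mul, castPS_C_natCast, castPS_C_natCast, ← ha, ← hb,
    Nat.cast_mul, map_mul]
  ring

theorem bddDenom_mul {u v : PowerSeries ℂ} (hu : BddDenom u) (hv : BddDenom v) :
    BddDenom (u * v) := by
  obtain ⟨M, hM, a, ha⟩ := (bddDenom_iff u).1 hu
  obtain ⟨N, hN, b, hb⟩ := (bddDenom_iff v).1 hv
  refine (bddDenom_iff _).2 ⟨M * N, Nat.mul_pos hM hN, a * b, ?_⟩
  rw [map_mul, ← ha, ← hb, Nat.cast_mul, map_mul]
  ring

theorem bddDenom_pow {u : PowerSeries ℂ} (hu : BddDenom u) (n : ℕ) : BddDenom (u ^ n) := by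
  induction n with
  | zero => simpa using bddDenom_one
  | succ n ih => rw [pow_succ]; exact bddDenom_mul ih hu

theorem bddDenom_smul_rat {u : PowerSeries ℂ} (hu : BddDenom u) (q : ℚ) :
    BddDenom ((q : ℂ) • u) := by
  obtain ⟨M, hM, a, ha⟩ := (bddDenom_iff u).1 hu
  refine (bddDenom_iff _).2 ⟨M * q.den, Nat.mul_pos hM q.den_pos, C q.num * a, ?_⟩
  have hq : (q.den : ℂ) * (q : ℂ) = (q.num : ℂ) := by
    have hden : (q.den : ℂ) ≠ 0 := Nat.cast_ne_zero.mpr q.den_ne_zero
    rw [Rat.cast_def, mul_div_cancel₀ _ hden]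
  have hC : castPS (C q.num) = C (q.num : ℂ) := by simp [castPS]
  rw [map_mul, hC, ← ha, smul_eq_C_mul, ← hq, Nat.cast_mul, map_mul, map_mul]
  ring

theorem bddDenom_neg {u : PowerSeries ℂ} (hu : BddDenom u) : BddDenom (-u) := by
  have h := bddDenom_smul_rat hu (-1)
  simpa using h

theorem bddDenom_sub {u v : PowerSeries ℂ} (hu : BddDenom u) (hv : BddDenom v) :
    BddDenom (u - v) := by
  rw [sub_eq_add_neg]; exact bddDenom_add hu (bddDenom_neg hv)

/-- A power series with rational coefficients. -/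
def RatPS (u : PowerSeries ℂ) : Prop := ∀ n, ∃ r : ℚ, coeff n u = (r : ℂ)

theorem bddDenom_ratPS {u : PowerSeries ℂ} (hu : BddDenom u) : RatPS u := by
  obtain ⟨M, hM, a, ha⟩ := (bddDenom_iff u).1 hu
  intro n
  have h := congrArg (coeff n) ha
  rw [coeff_C_mul, coeff_map] at h
  have hM' : (M : ℂ) ≠ 0 := Nat.cast_ne_zero.mpr hM.ne'
  refine ⟨((coeff n a : ℤ) : ℚ) / (M : ℚ), ?_⟩
  push_cast
  rw [eq_div_iff hM', mul_comm]
  simpa using h

theorem RatPS.one : RatPS (1 : PowerSeries ℂ) := by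
  intro n
  by_cases hn : n = 0
  · exact ⟨1, by simp [hn]⟩
  · exact ⟨0, by simp [coeff_one, hn]⟩

theorem RatPS.mul {u v : PowerSeries ℂ} (hu : RatPS u) (hv : RatPS v) : RatPS (u * v) := by
  classical
  choose f hf using hu
  choose g hg using hv
  intro n
  refine ⟨∑ p ∈ Finset.antidiagonal n, f p.1 * g p.2, ?_⟩
  rw [coeff_mul]
  push_cast
  exact Finset.sum_congr rfl fun p _ => by rw [hf, hg]

theorem RatPS.pow {u : PowerSeries ℂ} (hu : RatPS u) (n : ℕ) : RatPS (u ^ n) := by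
  induction n with
  | zero => simpa using RatPS.one
  | succ n ih => rw [pow_succ]; exact ih.mul hu

/-- The `ℂ`-span of the power series with bounded denominators. -/
def bddSpan : Submodule ℂ (PowerSeries ℂ) := Submodule.span ℂ {B | BddDenom B}

theorem subset_bddSpan {B : PowerSeries ℂ} (hB : BddDenom B) : B ∈ bddSpan :=
  Submodule.subset_span hB

theorem one_mem_bddSpan : (1 : PowerSeries ℂ) ∈ bddSpan := subset_bddSpan bddDenom_one

theorem bddSpan_mul {x y : PowerSeries ℂ} (hx : x ∈ bddSpan) (hy : y ∈ bddSpan) :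
    x * y ∈ bddSpan := by
  have h := Submodule.mul_mem_mul hx hy
  unfold bddSpan at h ⊢
  rw [Submodule.span_mul_span] at h
  refine Submodule.span_mono ?_ h
  rintro _ ⟨a, ha, b, hb, rfl⟩
  exact bddDenom_mul ha hb

theorem bddSpan_pow {x : PowerSeries ℂ} (hx : x ∈ bddSpan) (n : ℕ) : x ^ n ∈ bddSpan := by
  induction n with
  | zero => simpa using one_mem_bddSpan
  | succ n ih => rw [pow_succ]; exact bddSpan_mul ih hx

/-- Coefficientwise application of a `ℚ`-linear map `ℂ → ℚ`. -/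
noncomputable def rStar (r : ℂ →ₗ[ℚ] ℚ) (w : PowerSeries ℂ) : PowerSeries ℂ :=
  PowerSeries.mk fun n => ((r (coeff n w) : ℚ) : ℂ)

@[simp]
theorem coeff_rStar (r : ℂ →ₗ[ℚ] ℚ) (w : PowerSeries ℂ) (n : ℕ) :
    coeff n (rStar r w) = ((r (coeff n w) : ℚ) : ℂ) := by
  simp [rStar]

theorem rStar_zero (r : ℂ →ₗ[ℚ] ℚ) : rStar r 0 = 0 := by
  ext n; simp

theorem rStar_add (r : ℂ →ₗ[ℚ] ℚ) (v w : PowerSeries ℂ) :
    rStar r (v + w) = rStar r v + rStar r w := by
  ext n; simp

theorem rStar_sum (r : ℂ →ₗ[ℚ] ℚ) {ι : Type*} (s : Finset ι) (f : ι → PowerSeries ℂ) :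
    rStar r (∑ i ∈ s, f i) = ∑ i ∈ s, rStar r (f i) := by
  classical
  induction s using Finset.induction_on with
  | empty => simp [rStar_zero]
  | insert a s ha ih => rw [Finset.sum_insert ha, Finset.sum_insert ha, rStar_add, ih]

theorem rStar_one (r : ℂ →ₗ[ℚ] ℚ) (hr : r 1 = 1) : rStar r 1 = 1 := by
  ext n
  by_cases hn : n = 0
  · simp [hn, hr]
  · simp [coeff_one, hn]

theorem rStar_mul_of_ratPS (r : ℂ →ₗ[ℚ] ℚ) {u : PowerSeries ℂ} (hu : RatPS u)
    (w : PowerSeries ℂ) : rStar r (u * w) = u * rStar r w := by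
  ext n
  simp only [coeff_rStar, coeff_mul, map_sum]
  push_cast
  refine Finset.sum_congr rfl fun p _ => ?_
  obtain ⟨q, hq⟩ := hu p.1
  rw [hq]
  have h : ((q : ℂ) * coeff p.2 w) = q • coeff p.2 w := by rw [Rat.smul_def]
  rw [h, map_smul, smul_eq_mul]
  push_cast
  ring

theorem rStar_smul_of_ratPS (r : ℂ →ₗ[ℚ] ℚ) (c : ℂ) {B : PowerSeries ℂ} (hB : RatPS B) :
    rStar r (c • B) = ((r c : ℚ) : ℂ) • B := by
  ext n
  simp only [coeff_rStar, coeff_smul, smul_eq_mul]
  obtain ⟨q, hq⟩ := hB n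
  rw [hq]
  have h : (c * (q : ℂ)) = q • c := by rw [Rat.smul_def, mul_comm]
  rw [h, map_smul, smul_eq_mul]
  push_cast
  ring

theorem bddDenom_rStar (r : ℂ →ₗ[ℚ] ℚ) {x : PowerSeries ℂ} (hx : x ∈ bddSpan) :
    BddDenom (rStar r x) := by
  have key : ∀ c : ℂ, BddDenom (rStar r (c • x)) := by
    unfold bddSpan at hx
    induction hx using Submodule.span_induction with
    | mem B hB =>
      intro c
      rw [rStar_smul_of_ratPS r c (bddDenom_ratPS hB)]
      exact bddDenom_smul_rat hB _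
    | zero =>
      intro c
      rw [smul_zero, rStar_zero]
      exact bddDenom_zero
    | add x y _ _ hx hy =>
      intro c
      rw [smul_add, rStar_add]
      exact bddDenom_add (hx c) (hy c)
    | smul a x _ hx =>
      intro c
      rw [smul_smul]
      exact hx (c * a)
  simpa using key 1

theorem exists_retraction (c : ℂ) (hc : c ≠ 0) : ∃ r : ℂ →ₗ[ℚ] ℚ, r c = 1 := by
  let f : ℚ →ₗ[ℚ] ℂ := LinearMap.toSpanSingleton ℚ ℂ c
  have hf : LinearMap.ker f = ⊥ := by
    rw [LinearMap.ker_eq_bot]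
    intro a b hab
    have h : a • c = b • c := by simpa [f] using hab
    rw [Rat.smul_def, Rat.smul_def] at h
    exact_mod_cast mul_right_cancel₀ hc h
  obtain ⟨g, hg⟩ := f.exists_leftInverse_of_injective hf
  refine ⟨g, ?_⟩
  have h := LinearMap.congr_fun hg 1
  simpa [f] using h

theorem exists_common_denom (μ : ℕ) (Q : ℕ → PowerSeries ℂ)
    (hQ : ∀ m, m < μ → BddDenom (Q m)) :
    ∃ M : ℕ, 0 < M ∧ ∃ q : ℕ → PowerSeries ℤ, ∀ m, m < μ → C (M : ℂ) * Q m = castPS (q m) := by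
  classical
  induction μ with
  | zero => exact ⟨1, one_pos, fun _ => 0, fun m hm => absurd hm (Nat.not_lt_zero m)⟩
  | succ μ ih =>
    obtain ⟨M, hM, q, hq⟩ := ih fun m hm => hQ m (Nat.lt_succ_of_lt hm)
    obtain ⟨N, hN, b, hb⟩ := (bddDenom_iff _).1 (hQ μ (Nat.lt_succ_self μ))
    refine ⟨M * N, Nat.mul_pos hM hN,
      fun m => if m < μ then C (N : ℤ) * q m else C (M : ℤ) * b, fun m hm => ?_⟩
    by_cases hmμ : m < μ
    · simp only [if_pos hmμ]
      rw [map_mul, castPS_C_natCast, ← hq m hmμ, Nat.cast_mul, map_mul]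
      ring
    · have hmeq : m = μ := by omega
      subst hmeq
      simp only [if_neg hmμ]
      rw [map_mul, castPS_C_natCast, ← hb, Nat.cast_mul, map_mul]
      ring

/-- **Bounded denominators from relations.** -/
theorem bddDenom_of_relations (u : PowerSeries ℂ)
    (hu : ∀ n, ∃ r : ℚ, PowerSeries.coeff n u = (r : ℂ))
    (D H : PowerSeries ℂ) (hD : D ∈ bddSpan) (hH : H ∈ bddSpan) (hD0 : D ≠ 0) (hDH : u * D = H)
    (μ : ℕ) (P : ℕ → PowerSeries ℂ) (hP : ∀ m, m < μ → P m ∈ bddSpan)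
    (hrel : u ^ μ + ∑ m ∈ Finset.range μ, P m * u ^ m = 0) : BddDenom u := by
  classical
  have huR : RatPS u := hu
  -- Step A: a quotient presentation with integral numerator and denominator
  obtain ⟨n₀, hn₀⟩ : ∃ n, coeff n D ≠ 0 := by
    by_contra h
    simp only [not_exists, not_not] at h
    exact hD0 (PowerSeries.ext fun n => by simpa using h n)
  obtain ⟨r₁, hr₁⟩ := exists_retraction _ hn₀
  have hD₁0 : rStar r₁ D ≠ 0 := by
    intro h
    have h' := congrArg (coeff n₀) h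
    simp [hr₁] at h'
  have hrel₁ : u * rStar r₁ D = rStar r₁ H := by
    rw [← rStar_mul_of_ratPS r₁ huR, hDH]
  obtain ⟨M₁, hM₁, d₁, hd₁⟩ := (bddDenom_iff _).1 (bddDenom_rStar r₁ hD)
  obtain ⟨M₂, hM₂, a₁, ha₁⟩ := (bddDenom_iff _).1 (bddDenom_rStar r₁ hH)
  -- Step B: a monic relation with bounded-denominator coefficients
  obtain ⟨r₂, hr₂⟩ := exists_retraction (1 : ℂ) one_ne_zero
  have hrel₂ : u ^ μ + ∑ m ∈ Finset.range μ, rStar r₂ (P m) * u ^ m = 0 := by
    have h := congrArg (rStar r₂) hrel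
    rw [rStar_zero, rStar_add, rStar_sum] at h
    have h1 : rStar r₂ (u ^ μ) = u ^ μ := by
      have h2 := rStar_mul_of_ratPS r₂ (RatPS.pow huR μ) 1
      rwa [mul_one, rStar_one r₂ hr₂, mul_one] at h2
    rw [h1] at h
    rw [← h]
    congr 1
    refine Finset.sum_congr rfl fun m _ => ?_
    rw [mul_comm (P m), rStar_mul_of_ratPS r₂ (RatPS.pow huR m), mul_comm]
  obtain ⟨M, hM, q, hq⟩ := exists_common_denom μ (fun m => rStar r₂ (P m))
    (fun m hm => bddDenom_rStar r₂ (hP m hm))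
  -- the monic polynomial
  let p : Polynomial (PowerSeries ℤ) :=
    Polynomial.X ^ μ + ∑ i : Fin μ, Polynomial.C (C (M : ℤ) ^ (μ - 1 - (i : ℕ)) * q i) *
      Polynomial.X ^ (i : ℕ)
  have hp : p.Monic := Polynomial.monic_X_pow_add (Polynomial.degree_sum_fin_lt _)
  have hMC : (C (M : ℂ) : PowerSeries ℂ) ≠ 0 := C_natCast_ne_zero hM
  have hpv : Polynomial.eval₂ castPS (C (M : ℂ) * u) p = 0 := by
    have hterm : ∀ i : ℕ, i < μ →
        castPS (C (M : ℤ) ^ (μ - 1 - i) * q i) * (C (M : ℂ) * u) ^ i =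
          C (M : ℂ) ^ μ * (rStar r₂ (P i) * u ^ i) := by
      intro i hi
      have hpow : μ = (μ - 1 - i) + 1 + i := by omega
      rw [map_mul, map_pow, castPS_C_natCast, ← hq i hi, mul_pow]
      conv_rhs => rw [hpow, pow_add, pow_succ]
      ring
    simp only [p, Polynomial.eval₂_add, Polynomial.eval₂_pow, Polynomial.eval₂_X,
      Polynomial.eval₂_finsetSum, Polynomial.eval₂_mul, Polynomial.eval₂_C]
    rw [Fin.sum_univ_eq_sum_range
      (fun i => castPS (C (M : ℤ) ^ (μ - 1 - i) * q i) * (C (M : ℂ) * u) ^ i) μ,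
      Finset.sum_congr rfl fun i hi => hterm i (Finset.mem_range.mp hi), ← Finset.mul_sum,
      mul_pow, ← mul_add, hrel₂, mul_zero]
  -- apply integral closedness of `ℤ⟦X⟧`
  have hd₁0 : d₁ ≠ 0 := by
    rintro rfl
    rw [map_zero] at hd₁
    rcases mul_eq_zero.mp hd₁ with h | h
    · exact C_natCast_ne_zero hM₁ h
    · exact hD₁0 h
  have hd0 : C (M₂ : ℤ) * d₁ ≠ 0 := by
    refine mul_ne_zero ?_ hd₁0
    intro h
    have h0 := congrArg (coeff 0) h
    simp only [coeff_zero_C, map_zero, Nat.cast_eq_zero] at h0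
    omega
  have hquot : C (M : ℂ) * u * castPS (C (M₂ : ℤ) * d₁) =
      castPS (C (M : ℤ) * C (M₁ : ℤ) * a₁) := by
    rw [map_mul, map_mul, map_mul, castPS_C_natCast, castPS_C_natCast, castPS_C_natCast,
      ← hd₁, ← ha₁, ← hrel₁]
    ring
  obtain ⟨b, hb⟩ := int_powerSeries_of_integral (C (M : ℂ) * u) (C (M₂ : ℤ) * d₁)
    (C (M : ℤ) * C (M₁ : ℤ) * a₁) hd0 hquot p hp hpv
  exact (bddDenom_iff u).2 ⟨M, hM, b, hb⟩

/-- Variant of `bddDenom_of_relations` in the index convention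
`∑_{m ≤ μ} c m * u ^ (μ - m) = 0`, `c 0 = 1`. -/
theorem bddDenom_of_relations' (u : PowerSeries ℂ)
    (hu : ∀ n, ∃ r : ℚ, PowerSeries.coeff n u = (r : ℂ))
    (D H : PowerSeries ℂ) (hD : D ∈ bddSpan) (hH : H ∈ bddSpan) (hD0 : D ≠ 0) (hDH : u * D = H)
    (μ : ℕ) (c : ℕ → PowerSeries ℂ) (hc0 : c 0 = 1) (hc : ∀ m, m ≤ μ → c m ∈ bddSpan)
    (hrel : ∑ m ∈ Finset.range (μ + 1), c m * u ^ (μ - m) = 0) : BddDenom u := by
  refine bddDenom_of_relations u hu D H hD hH hD0 hDH μ (fun m => c (μ - m))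
    (fun m _ => hc _ (Nat.sub_le μ m)) ?_
  rw [← hrel, Finset.sum_range_succ', hc0, Nat.sub_zero, one_mul, add_comm]
  congr 1
  rw [← Finset.sum_range_reflect]
  refine Finset.sum_congr rfl fun j hj => ?_
  have hj' : j < μ := Finset.mem_range.mp hj
  have h1 : μ - (μ - 1 - j) = j + 1 := by omega
  have h2 : μ - 1 - j = μ - (j + 1) := by omega
  rw [h1, h2]

end Fermat.Agent.S23.H55
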